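/-
IHARA / B1 (helper4), file 1: **integer-valued orders of the reduction on `Z_∞`**.

`ihbOrd 𝔓 N' h Y s = ord_s (dlsRed 𝔓 N' h Y) : ℤ` for `Y ∈ F_{N' q}ˣ` and a place `s` of
`Z_∞ ≅ X₀(N')_{𝔽̄_q}` (DELTA's `dlsSlope` is its image in `ZMod 𝔓.p`; here the modulus will be a prime
`p ≠ 𝔓.p`, so everything is stated in `ℤ`).
-/
import Mathlib
import Fermat.Agent.Lib.Delta.Slope.Red

set_option autoImplicit false
set_option linter.unusedSectionVars false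
set_option linter.unusedVariables false
set_option linter.style.haveILetI false
set_option synthInstance.maxHeartbeats 400000

namespace Fermat.Agent.Ihara

open ModularCurve HahnSeries Fermat.Agent.T1 Fermat.Agent.T2 Fermat.Agent.TW Fermat.Agent.S24Lib
  Fermat.Agent.S33Q Fermat.Agent.S33 Fermat.Agent.S05Lib AlgebraicCurve Fermat.Agent.Curve
  Fermat.Agent.Delta

local notation "Qb" => AlgebraicClosure ℚ

noncomputable section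

attribute [local instance] s33g_neZero

variable (𝔓 : FFPlace) (N' : ℕ) [NeZero N'] (h : ¬ 𝔓.p ∣ N')

/-- the order at `s` of the reduction of `Y` on `Z_∞` -/
def ihbOrd (Y : (↥(modularFunctionFieldBar (N' * 𝔓.p)))ˣ)
    (s : Place (IsLocalRing.ResidueField ↥𝔓.P) ↥(tbBarF 𝔓 N')) : ℤ :=
  s.ord (dlsRed 𝔓 N' h Y)

/-- any reduction computes the orders -/
theorem ihbOrd_eq_of_redTo (Y : (↥(modularFunctionFieldBar (N' * 𝔓.p)))ˣ) (y : ↥(tbBarF 𝔓 N'))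
    (hy : DlsRedTo 𝔓.P (IsLocalRing.residue ↥𝔓.P)
      ((Y : ↥(modularFunctionFieldBar (N' * 𝔓.p))) : LaurentSeries Qb)
      (y : LaurentSeries (IsLocalRing.ResidueField ↥𝔓.P)))
    (s : Place (IsLocalRing.ResidueField ↥𝔓.P) ↥(tbBarF 𝔓 N')) :
    ihbOrd 𝔓 N' h Y s = s.ord y :=
  dls_ord_red_eq 𝔓 N' h Y y hy s

/-- the orders computed from a Gauss normalisation `c Y` -/
theorem ihbOrd_eq_of_gauss (Y : (↥(modularFunctionFieldBar (N' * 𝔓.p)))ˣ) {c : Qb} (hc : c ≠ 0)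
    (hg : TbGauss 𝔓.P (IsLocalRing.residue ↥𝔓.P)
      (HahnSeries.C c * ((Y : ↥(modularFunctionFieldBar (N' * 𝔓.p))) : LaurentSeries Qb)))
    (y : ↥(tbBarF 𝔓 N')) (hy0 : y ≠ 0)
    (hy : tbRhoFun 𝔓.P (IsLocalRing.residue ↥𝔓.P)
      (HahnSeries.C c * ((Y : ↥(modularFunctionFieldBar (N' * 𝔓.p))) : LaurentSeries Qb)) =
      (y : LaurentSeries (IsLocalRing.ResidueField ↥𝔓.P)))
    (s : Place (IsLocalRing.ResidueField ↥𝔓.P) ↥(tbBarF 𝔓 N')) :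
    ihbOrd 𝔓 N' h Y s = s.ord y := by
  apply ihbOrd_eq_of_redTo
  have h0 : tbRhoFun 𝔓.P (IsLocalRing.residue ↥𝔓.P)
      (HahnSeries.C c * ((Y : ↥(modularFunctionFieldBar (N' * 𝔓.p))) : LaurentSeries Qb)) ≠ 0 := by
    rw [hy]
    exact fun h1 => hy0 (Subtype.ext h1)
  have h1 := (dls_redTo_of_gauss hg h0).C_mul (inv_ne_zero hc)
  rwa [dls_C_inv_mul_C hc, hy] at h1

theorem ihbOrd_mul (Y Y' : (↥(modularFunctionFieldBar (N' * 𝔓.p)))ˣ)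
    (s : Place (IsLocalRing.ResidueField ↥𝔓.P) ↥(tbBarF 𝔓 N')) :
    ihbOrd 𝔓 N' h (Y * Y') s = ihbOrd 𝔓 N' h Y s + ihbOrd 𝔓 N' h Y' s := by
  have h1 := (dlsRed_spec 𝔓 N' h Y).mul (dlsRed_spec 𝔓 N' h Y')
  rw [ihbOrd_eq_of_redTo 𝔓 N' h (Y * Y') (dlsRed 𝔓 N' h Y * dlsRed 𝔓 N' h Y') h1 s,
    s.ord_mul (dlsRed_ne_zero 𝔓 N' h Y) (dlsRed_ne_zero 𝔓 N' h Y')]
  rfl

theorem ihbOrd_one (s : Place (IsLocalRing.ResidueField ↥𝔓.P) ↥(tbBarF 𝔓 N')) :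
    ihbOrd 𝔓 N' h 1 s = 0 := by
  have h1 : DlsRedTo 𝔓.P (IsLocalRing.residue ↥𝔓.P)
      (((1 : (↥(modularFunctionFieldBar (N' * 𝔓.p)))ˣ) : ↥(modularFunctionFieldBar (N' * 𝔓.p))) :
        LaurentSeries Qb) (((1 : ↥(tbBarF 𝔓 N')) : ↥(tbBarF 𝔓 N')) :
        LaurentSeries (IsLocalRing.ResidueField ↥𝔓.P)) := dls_redTo_one
  rw [ihbOrd_eq_of_redTo 𝔓 N' h 1 1 h1 s, Place.ord_one]

theorem ihbOrd_inv (Y : (↥(modularFunctionFieldBar (N' * 𝔓.p)))ˣ)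
    (s : Place (IsLocalRing.ResidueField ↥𝔓.P) ↥(tbBarF 𝔓 N')) :
    ihbOrd 𝔓 N' h Y⁻¹ s = -ihbOrd 𝔓 N' h Y s := by
  have h1 := ihbOrd_mul 𝔓 N' h Y Y⁻¹ s
  rw [mul_inv_cancel, ihbOrd_one] at h1
  omega

theorem ihbOrd_pow (Y : (↥(modularFunctionFieldBar (N' * 𝔓.p)))ˣ) (n : ℕ)
    (s : Place (IsLocalRing.ResidueField ↥𝔓.P) ↥(tbBarF 𝔓 N')) :
    ihbOrd 𝔓 N' h (Y ^ n) s = n * ihbOrd 𝔓 N' h Y s := by
  induction n with
  | zero => rw [pow_zero, ihbOrd_one, Nat.cast_zero, zero_mul]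
  | succ n ih => rw [pow_succ, ihbOrd_mul, ih]; push_cast; ring

theorem ihbOrd_zpow (Y : (↥(modularFunctionFieldBar (N' * 𝔓.p)))ˣ) (n : ℤ)
    (s : Place (IsLocalRing.ResidueField ↥𝔓.P) ↥(tbBarF 𝔓 N')) :
    ihbOrd 𝔓 N' h (Y ^ n) s = n * ihbOrd 𝔓 N' h Y s := by
  cases n with
  | ofNat n => rw [Int.ofNat_eq_natCast, zpow_natCast, ihbOrd_pow]
  | negSucc n =>
    rw [zpow_negSucc, ihbOrd_inv, ihbOrd_pow, Int.negSucc_eq]
    push_cast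
    ring

/-- constants do not change the orders -/
theorem ihbOrd_const_mul (c : Qbˣ) (Y Y' : (↥(modularFunctionFieldBar (N' * 𝔓.p)))ˣ)
    (hYY' : (Y' : ↥(modularFunctionFieldBar (N' * 𝔓.p))) =
      algebraMap Qb _ (c : Qb) * (Y : ↥(modularFunctionFieldBar (N' * 𝔓.p))))
    (s : Place (IsLocalRing.ResidueField ↥𝔓.P) ↥(tbBarF 𝔓 N')) :
    ihbOrd 𝔓 N' h Y' s = ihbOrd 𝔓 N' h Y s := by
  apply ihbOrd_eq_of_redTo
  have h1 := (dlsRed_spec 𝔓 N' h Y).C_mul c.ne_zero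
  have h2 : ((Y' : ↥(modularFunctionFieldBar (N' * 𝔓.p))) : LaurentSeries Qb) =
      HahnSeries.C (c : Qb) * ((Y : ↥(modularFunctionFieldBar (N' * 𝔓.p))) : LaurentSeries Qb) := by
    rw [hYY', MulMemClass.coe_mul]
    congr 1
    rw [HahnSeries.C_apply, ← algebraMap_laurentSeries_eq_single]
    rfl
  rwa [h2]

/-- `p`-th powers have `p`-divisible orders -/
theorem ihbOrd_pow_dvd (Y : (↥(modularFunctionFieldBar (N' * 𝔓.p)))ˣ) (p : ℕ)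
    (s : Place (IsLocalRing.ResidueField ↥𝔓.P) ↥(tbBarF 𝔓 N')) :
    (p : ℤ) ∣ ihbOrd 𝔓 N' h (Y ^ p) s := by
  rw [ihbOrd_pow]
  exact Dvd.intro _ rfl

end

end Fermat.Agent.Ihara
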