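/-
IHARA / B1 (helper4), file 2: **the dictionary between the integer orders `ihbOrd` of the reduction on
`Z_∞` and the slopes of the local models of DELTA / NODE-X**, with an arbitrary modulus `m` in the
conservation laws (port of `Lib/Delta/Core/Dict.lean`, where the modulus is `𝔓.p`).
-/
import Mathlib
import Fermat.Agent.Lib.Delta.Core.Dict
import Fermat.Agent.Lib.Ihara.B.Red.Ord

set_option autoImplicit false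
set_option linter.unusedSectionVars false
set_option linter.unusedVariables false
set_option linter.style.haveILetI false
set_option synthInstance.maxHeartbeats 400000
set_option maxHeartbeats 1000000

open HahnSeries ModularCurve Fermat.Agent.T1 Fermat.Agent.T2 Fermat.Agent.T4 Fermat.Agent.TW
  Fermat.Agent.S05Lib Fermat.Agent.S24Lib AlgebraicCurve Fermat.Agent.Curve
  Fermat.Agent.S33 Fermat.Agent.S33Q Fermat.Agent.Delta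

noncomputable section

namespace Fermat.Agent.Ihara

local notation "Qb" => AlgebraicClosure ℚ

attribute [local instance] t2i_dvr t2i_isAlgClosed t2i_charP t2i_fact
attribute [local instance 10000] dliAlgF dliAlgE
attribute [local instance] s33g_neZero

variable (𝔓 : FFPlace) (H : Subgroup 𝔓.I) [H.FiniteIndex] {ϖ : ↥(tbFixO 𝔓 H)}
  (hϖ : Irreducible ϖ) (N' : ℕ) [NeZero N'] (h : ¬ 𝔓.p ∣ N')

/-- **(i)** any normalisation of `z` at the Gauss place `v_∞` of the level `H` computes the slopes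
of the corresponding function over `Qbar` -/
theorem ihbd_ord (z : ↥(tbLevF 𝔓 (N' * 𝔓.p) H)) (hz : z ≠ 0)
    (Y : (↥(modularFunctionFieldBar (N' * 𝔓.p)))ˣ)
    (hY : (Y : ↥(modularFunctionFieldBar (N' * 𝔓.p))) = tbPhiF 𝔓 (N' * 𝔓.p) H z) {n : ℤ}
    (hn : z / (dliInfH 𝔓 H hϖ N' h).pi ^ n ∈ (dliInfH 𝔓 H hϖ N' h).O)
    (hy : (dliInfH 𝔓 H hϖ N' h).res ⟨_, hn⟩ ≠ 0)
    (s : Place (IsLocalRing.ResidueField ↥𝔓.P) ↥(tbBarF 𝔓 N')) :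
    ihbOrd 𝔓 N' h Y s = s.ord ((dliInfH 𝔓 H hϖ N' h).res ⟨_, hn⟩) := by
  set g := dliInfH 𝔓 H hϖ N' h with hg
  have hϖ0 : ((ϖ : ↥(tbFixO 𝔓 H)) : ↥(tbFix 𝔓 H)) ≠ 0 := fun h0 =>
    hϖ.ne_zero (Subtype.ext h0)
  set c : Qb := (algebraMap ↥(tbFix 𝔓 H) Qb ((ϖ : ↥(tbFixO 𝔓 H)) : ↥(tbFix 𝔓 H))) ^ (-n) with hc
  have hc0 : c ≠ 0 := zpow_ne_zero _ ((map_ne_zero _).mpr hϖ0)
  -- the Laurent series of `z / ϖ ^ n` over `Qbar`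
  have hpi : tbPhiF 𝔓 (N' * 𝔓.p) H g.pi = algebraMap Qb ↥(modularFunctionFieldBar (N' * 𝔓.p))
      (algebraMap ↥(tbFix 𝔓 H) Qb ((ϖ : ↥(tbFixO 𝔓 H)) : ↥(tbFix 𝔓 H))) :=
    tbPhiF_algebraMap 𝔓 (N' * 𝔓.p) H _
  have hfun : algebraMap Qb ↥(modularFunctionFieldBar (N' * 𝔓.p)) c *
      (Y : ↥(modularFunctionFieldBar (N' * 𝔓.p))) = tbPhiF 𝔓 (N' * 𝔓.p) H (z / g.pi ^ n) := by
    rw [map_div₀ (tbPhiF 𝔓 (N' * 𝔓.p) H), map_zpow₀ (tbPhiF 𝔓 (N' * 𝔓.p) H), hpi, ← hY, hc,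
      map_zpow₀ (algebraMap Qb ↥(modularFunctionFieldBar (N' * 𝔓.p))), zpow_neg, div_eq_mul_inv]
    exact mul_comm _ _
  have hser : HahnSeries.C c * ((Y : ↥(modularFunctionFieldBar (N' * 𝔓.p))) : LaurentSeries Qb) =
      tbPhi 𝔓 H ((z / g.pi ^ n : ↥(tbLevF 𝔓 (N' * 𝔓.p) H)) : LaurentSeries ↥(tbFix 𝔓 H)) := by
    rw [← coe_tbPhiF, ← hfun, MulMemClass.coe_mul]
    congr 1
    rw [HahnSeries.C_apply, ← algebraMap_laurentSeries_eq_single]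
    rfl
  have hG : TbGauss (tbFixO 𝔓 H) (tbFixRes 𝔓 H)
      ((z / g.pi ^ n : ↥(tbLevF 𝔓 (N' * 𝔓.p) H)) : LaurentSeries ↥(tbFix 𝔓 H)) := hn
  refine ihbOrd_eq_of_gauss 𝔓 N' h Y hc0 ?_ (g.res ⟨_, hn⟩) hy ?_ s
  · rw [hser]
    exact tbPhi_gauss 𝔓 H hG
  · rw [hser, tbPhi_rho 𝔓 H hG]
    exact (coe_dliInfH_res 𝔓 H hϖ N' h _ hn).symm


section Chart

variable {σ : Type*} [Fintype σ]
  (C : DlxChart (dliInfH 𝔓 H hϖ N' h) (dliZeroH 𝔓 H hϖ N' h) σ) [IsNoetherianRing ↥C.P.B]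

/-- **(ii), node**: at a node `s` of the chart, the slope of `Y` at `s.1` is the slope of `z` at the
crossing, modulo `p` -/
theorem ihbd_cross {s : Place (IsLocalRing.ResidueField ↥𝔓.P) ↥(tbBarF 𝔓 N') ×
      Place (IsLocalRing.ResidueField ↥𝔓.P) ↥(tbBarF 𝔓 N')} (hs : s ∈ C.G.nodes)
    (hfin : C.FinAt (C.n₁ s.1 (C.node_fin₁ hs)))
    (hens : DltHens (dliBaseH 𝔓 H hϖ).A ↥(tbLevF 𝔓 (N' * 𝔓.p) H))
    (D : ↥(tbLevF 𝔓 (N' * 𝔓.p) H)) (hD0 : D ≠ 0)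
    (hDhor : ∀ V ∈ t4vpHor ↥(tbFix 𝔓 H) C.x, V.valuation D = 1)
    (hD1 : C.V₁.valuation D = 1) (hD2 : C.V₂.valuation D < 1)
    (z : ↥(tbLevF 𝔓 (N' * 𝔓.p) H)) (hz : z ≠ 0)
    (Y : (↥(modularFunctionFieldBar (N' * 𝔓.p)))ˣ)
    (hY : (Y : ↥(modularFunctionFieldBar (N' * 𝔓.p))) = tbPhiF 𝔓 (N' * 𝔓.p) H z) :
    ihbOrd 𝔓 N' h Y s.1 = (C.toCross hs hfin hens D hD0 hDhor hD1 hD2).slope z := by
  obtain ⟨n, hn, hy⟩ := dlqd_exists_norm (dliInfH 𝔓 H hϖ N' h) hz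
  rw [C.toCross_slope hs hfin hens D hD0 hDhor hD1 hD2 hz hn hy]
  exact ihbd_ord 𝔓 H hϖ N' h z hz Y hY hn hy s.1

/-- **(ii), free place**: at a free place `P` of the chart, the order of `Y` at `P` is the slope of
`z` at the smooth point -/
theorem ihbd_smooth (P : Place (IsLocalRing.ResidueField ↥𝔓.P) ↥(tbBarF 𝔓 N'))
    (hP : 0 ≤ P.ord C.G.x.1) (hfree : ∀ Q, (P, Q) ∉ C.G.nodes)
    (hfin : C.FinAt (C.n₁ P hP))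
    (hens : DltHens (dliBaseH 𝔓 H hϖ).A ↥(tbLevF 𝔓 (N' * 𝔓.p) H))
    (z : ↥(tbLevF 𝔓 (N' * 𝔓.p) H)) (hz : z ≠ 0)
    (Y : (↥(modularFunctionFieldBar (N' * 𝔓.p)))ˣ)
    (hY : (Y : ↥(modularFunctionFieldBar (N' * 𝔓.p))) = tbPhiF 𝔓 (N' * 𝔓.p) H z) :
    ihbOrd 𝔓 N' h Y P = (C.toSmooth P hP hfree hfin hens).slope z := by
  obtain ⟨n, hn, hy⟩ := dlqd_exists_norm (dliInfH 𝔓 H hϖ N' h) hz
  rw [C.toSmooth_slope P hP hfree hfin hens hz hn hy]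
  exact ihbd_ord 𝔓 H hϖ N' h z hz Y hY hn hy P

/-! ### (iv) the conservation law at the free places; the vertical unit -/

/-- **(CONS)**: if `p` divides all horizontal orders of `z`, the slope of `Y` vanishes at every free
place of the chart -/
theorem ihbd_free (P : Place (IsLocalRing.ResidueField ↥𝔓.P) ↥(tbBarF 𝔓 N'))
    (hP : 0 ≤ P.ord C.G.x.1) (hfree : ∀ Q, (P, Q) ∉ C.G.nodes)
    (hfin : C.FinAt (C.n₁ P hP))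
    (hens : DltHens (dliBaseH 𝔓 H hϖ).A ↥(tbLevF 𝔓 (N' * 𝔓.p) H))
    (z : ↥(tbLevF 𝔓 (N' * 𝔓.p) H)) (hz : z ≠ 0)
    (Y : (↥(modularFunctionFieldBar (N' * 𝔓.p)))ˣ)
    (hY : (Y : ↥(modularFunctionFieldBar (N' * 𝔓.p))) = tbPhiF 𝔓 (N' * 𝔓.p) H z)
    (m : ℕ)
    (hhor : ∀ (V : ValuationSubring ↥(tbLevF 𝔓 (N' * 𝔓.p) H))
      (hV : V ∈ t4vpHor ↥(tbFix 𝔓 H) C.x) [IsDiscreteValuationRing ↥V],
      (m : ℤ) ∣ dlOrd V z) :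
    (m : ℤ) ∣ ihbOrd 𝔓 N' h Y P := by
  rw [ihbd_smooth 𝔓 H hϖ N' h C P hP hfree hfin hens z hz Y hY]
  refine dlns_slope_dvd_lit (C.toSmooth P hP hfree hfin hens) m hz (fun V hV => ?_)
  exact @hhor V (dlqd_smooth_hor 𝔓 H hϖ N' h C P hP hfree hfin hens hV)
    ((C.toSmooth P hP hfree hfin hens).P.dvr V hV.1)

end Chart

/-! ### (CONS) at all free places of `Z_∞`: charts 1 and 2 -/

section Inst

variable (h49 : 4 ∣ N' ∨ 9 ∣ N') {n : ℕ} (su : T2Setup (t2iBase2Fix 𝔓 H N' h) (Fin n))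
  (hx : su.x = t2gaX 𝔓 H N' h (𝔓.p ^ 2)) (hxb : su.xb = (s33qXi 𝔓 N', s33qXi 𝔓 N'))

/-- **(CONS) at the non-cuspidal free places**: if `p` divides the orders of `z` at all places of
`F_H / L_H`, then the slope of `Y` vanishes at every non-cuspidal place of `Z_∞` which is not a
node of chart 1 -/
theorem ihbd_free1 (P : Place (IsLocalRing.ResidueField ↥𝔓.P) ↥(tbBarF 𝔓 N'))
    (hP : DlsFin 𝔓 N' P)
    (hfree : ∀ Q, (P, Q) ∉ (dlxChart1 𝔓 H hϖ N' h h49 su hx hxb).G.nodes)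
    (z : ↥(tbLevF 𝔓 (N' * 𝔓.p) H)) (hz : z ≠ 0)
    (Y : (↥(modularFunctionFieldBar (N' * 𝔓.p)))ˣ)
    (hY : (Y : ↥(modularFunctionFieldBar (N' * 𝔓.p))) = tbPhiF 𝔓 (N' * 𝔓.p) H z)
    (m : ℕ)
    (hhor : ∀ (x : ↥(tbLevF 𝔓 (N' * 𝔓.p) H)) (V : ValuationSubring ↥(tbLevF 𝔓 (N' * 𝔓.p) H))
      (hV : V ∈ t4vpHor ↥(tbFix 𝔓 H) x) [IsDiscreteValuationRing ↥V], (m : ℤ) ∣ dlOrd V z) :
    (m : ℤ) ∣ ihbOrd 𝔓 N' h Y P :=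
  ihbd_free 𝔓 H hϖ N' h (dlxChart1 𝔓 H hϖ N' h h49 su hx hxb) P
    (dlqd_hP1 𝔓 H hϖ N' h h49 su hx hxb P hP) hfree
    (dlxChart1_finAt 𝔓 H hϖ N' h h49 su hx hxb P _) (dlx_hensH 𝔓 H hϖ N') z hz Y hY m
    (fun V hV _ => hhor _ V hV)

include hϖ h49 su hx hxb in
/-- **(CONS) at the cusps** -/
theorem ihbd_cusp (P : Place (IsLocalRing.ResidueField ↥𝔓.P) ↥(tbBarF 𝔓 N'))
    (hP : ¬ DlsFin 𝔓 N' P)
    (z : ↥(tbLevF 𝔓 (N' * 𝔓.p) H)) (hz : z ≠ 0)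
    (Y : (↥(modularFunctionFieldBar (N' * 𝔓.p)))ˣ)
    (hY : (Y : ↥(modularFunctionFieldBar (N' * 𝔓.p))) = tbPhiF 𝔓 (N' * 𝔓.p) H z)
    (m : ℕ)
    (hhor : ∀ (x : ↥(tbLevF 𝔓 (N' * 𝔓.p) H)) (V : ValuationSubring ↥(tbLevF 𝔓 (N' * 𝔓.p) H))
      (hV : V ∈ t4vpHor ↥(tbFix 𝔓 H) x) [IsDiscreteValuationRing ↥V], (m : ℤ) ∣ dlOrd V z) :
    (m : ℤ) ∣ ihbOrd 𝔓 N' h Y P := by
  haveI := dlxChart2_noeth 𝔓 H hϖ N' h h49 su hx hxb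
  exact ihbd_free 𝔓 H hϖ N' h (dlxChart2 𝔓 H hϖ N' h su hx hxb) P
    (dlqd_hP2 𝔓 H hϖ N' h su hx hxb P hP) (dlxChart2_free 𝔓 H hϖ N' h su hx hxb P)
    (dlxChart2_finAt 𝔓 H hϖ N' h h49 su hx hxb P _) (dlx_hensH 𝔓 H hϖ N') z hz Y hY m
    (fun V hV _ => hhor _ V hV)

/-- **the orders of the vertical unit vanish at the non-cuspidal free places** -/
theorem ihbd_vert_free1 (P : Place (IsLocalRing.ResidueField ↥𝔓.P) ↥(tbBarF 𝔓 N'))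
    (hP : DlsFin 𝔓 N' P)
    (hfree : ∀ Q, (P, Q) ∉ (dlxChart1 𝔓 H hϖ N' h h49 su hx hxb).G.nodes)
    (fV : (↥(modularFunctionFieldBar (N' * 𝔓.p)))ˣ)
    (hfV : (fV : ↥(modularFunctionFieldBar (N' * 𝔓.p))) =
      tbPhiF 𝔓 (N' * 𝔓.p) H (dlxVertD 𝔓 H N')) :
    ihbOrd 𝔓 N' h fV P = 0 := by
  rw [ihbd_smooth 𝔓 H hϖ N' h (dlxChart1 𝔓 H hϖ N' h h49 su hx hxb) P
    (dlqd_hP1 𝔓 H hϖ N' h h49 su hx hxb P hP) hfree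
    (dlxChart1_finAt 𝔓 H hϖ N' h h49 su hx hxb P _) (dlx_hensH 𝔓 H hϖ N')
    (dlxVertD 𝔓 H N') (dlxVertD_ne_zero 𝔓 H N') fV hfV,
    dlqd_D_free 𝔓 H hϖ N' h (dlxChart1 𝔓 H hϖ N' h h49 su hx hxb) P _ hfree _ _
      (dlxVertD 𝔓 H N') (dlxVertD_ne_zero 𝔓 H N')
      (dlqd_vert_hor1 𝔓 H hϖ N' h h49 su hx hxb)]

end Inst

end Fermat.Agent.Ihara
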