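/-
IHARA / B1 (helper4), file 3: **the Eisenstein shape of the orders of the reduction, modulo `m`**
(single inertia level `H`; port of `Lib/Delta/Core/Cases.lean`, `dlqc_eis`).

For `zx ∈ F_H = tbLevF 𝔓 (N' q) H` with `m ∣ div (Φ zx)` over `ℚ̄`, `Y = Φ zx`, `f = Φ D`
(`D = dlxVertD` the vertical unit), `δ = ord_{v_0} D - ord_{v_∞} D`, `γ = ord_{v_0} zx - ord_{v_∞} zx`:
* at the non-cuspidal places `s` of `Z_∞`: `m ∣ ord_s Ȳ · δ - ord_s f̄ · γ`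
  (nodes: DELTA's thickness-free conservation law `dlc_cll_free`; free places: `ihbd_free1`);
* at the cusps: `m ∣ ord_s Ȳ`.
-/
import Mathlib
import Fermat.Agent.Lib.Delta.Core.Main
import Fermat.Agent.Lib.Ihara.B.Red.Dict

set_option autoImplicit false
set_option linter.unusedSectionVars false
set_option linter.unusedVariables false
set_option linter.style.haveILetI false
set_option synthInstance.maxHeartbeats 400000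
set_option maxHeartbeats 1000000

open HahnSeries ModularCurve Fermat.Agent.T1 Fermat.Agent.T2 Fermat.Agent.T4 Fermat.Agent.TW
  Fermat.Agent.S05Lib Fermat.Agent.S24Lib AlgebraicCurve Fermat.Agent.Curve
  Fermat.Agent.S33 Fermat.Agent.S33Q Fermat.Agent.Delta

noncomputable section

namespace Fermat.Agent.Ihara

local notation "Qb" => AlgebraicClosure ℚ

attribute [local instance] t2i_dvr t2i_isAlgClosed t2i_charP t2i_fact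
attribute [local instance 10000] dliAlgF dliAlgE
attribute [local instance] s33g_neZero

variable (𝔓 : FFPlace) (H : Subgroup 𝔓.I) [H.FiniteIndex] {ϖ : ↥(tbFixO 𝔓 H)}
  (hϖ : Irreducible ϖ) (N' : ℕ) [NeZero N'] (h : ¬ 𝔓.p ∣ N') (h49 : 4 ∣ N' ∨ 9 ∣ N') {n : ℕ}
  (su : T2Setup (t2iBase2Fix 𝔓 H N' h) (Fin n))
  (hx : su.x = t2gaX 𝔓 H N' h (𝔓.p ^ 2)) (hxb : su.xb = (s33qXi 𝔓 N', s33qXi 𝔓 N'))

/-- the horizontal valuation rings of a crossing of chart 1 are horizontal for the chart -/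
theorem ihbe_cross_hor {s : Place (IsLocalRing.ResidueField ↥𝔓.P) ↥(tbBarF 𝔓 N') ×
      Place (IsLocalRing.ResidueField ↥𝔓.P) ↥(tbBarF 𝔓 N')}
    (hs : s ∈ (dlxChart1 𝔓 H hϖ N' h h49 su hx hxb).G.nodes)
    {V : ValuationSubring ↥(tbLevF 𝔓 (N' * 𝔓.p) H)}
    (hV : V ∈ ((dlqVert 𝔓 H hϖ N' h h49 su hx hxb).cross hs).hor) :
    V ∈ t4vpHor ↥(tbFix 𝔓 H) (dlxChart1 𝔓 H hϖ N' h h49 su hx hxb).x := by
  rcases (dlxChart1 𝔓 H hϖ N' h h49 su hx hxb).vals_cases hV.1.1 with h1 | h1 | h1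
  · exact absurd h1 hV.2.1
  · exact absurd h1 hV.2.2
  · exact h1

/-- **the conservation law at a node, modulo `m`** -/
theorem ihbe_node (m : ℕ) {s : Place (IsLocalRing.ResidueField ↥𝔓.P) ↥(tbBarF 𝔓 N') ×
      Place (IsLocalRing.ResidueField ↥𝔓.P) ↥(tbBarF 𝔓 N')}
    (hs : s ∈ (dlxChart1 𝔓 H hϖ N' h h49 su hx hxb).G.nodes)
    (zx : ↥(tbLevF 𝔓 (N' * 𝔓.p) H)) (hzx0 : zx ≠ 0)
    (hhor : ∀ (x : ↥(tbLevF 𝔓 (N' * 𝔓.p) H)) (V : ValuationSubring ↥(tbLevF 𝔓 (N' * 𝔓.p) H))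
      (hV : V ∈ t4vpHor ↥(tbFix 𝔓 H) x) [IsDiscreteValuationRing ↥V], (m : ℤ) ∣ dlOrd V zx)
    (Y f : (↥(modularFunctionFieldBar (N' * 𝔓.p)))ˣ)
    (hY : (Y : ↥(modularFunctionFieldBar (N' * 𝔓.p))) = tbPhiF 𝔓 (N' * 𝔓.p) H zx)
    (hf : (f : ↥(modularFunctionFieldBar (N' * 𝔓.p))) =
      tbPhiF 𝔓 (N' * 𝔓.p) H (dlxVertD 𝔓 H N')) :
    (m : ℤ) ∣ ihbOrd 𝔓 N' h Y s.1 *
        ((dlqVert 𝔓 H hϖ N' h h49 su hx hxb).cross hs).oW' (dlxVertD 𝔓 H N') -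
      ihbOrd 𝔓 N' h f s.1 *
        (((dlqVert 𝔓 H hϖ N' h h49 su hx hxb).cross hs).oW' zx -
          ((dlqVert 𝔓 H hϖ N' h h49 su hx hxb).cross hs).oW zx) := by
  set T := dlqVert 𝔓 H hϖ N' h h49 su hx hxb with hT
  have h1 : ihbOrd 𝔓 N' h Y s.1 = (T.cross hs).slope zx :=
    ihbd_cross 𝔓 H hϖ N' h (dlxChart1 𝔓 H hϖ N' h h49 su hx hxb) hs (T.hfin _ _) T.hens T.D
      T.hD0 T.hDhor T.hD1 T.hD2 zx hzx0 Y hY
  have h2 : ihbOrd 𝔓 N' h f s.1 = (T.cross hs).slope T.D :=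
    ihbd_cross 𝔓 H hϖ N' h (dlxChart1 𝔓 H hϖ N' h h49 su hx hxb) hs (T.hfin _ _) T.hens T.D
      T.hD0 T.hDhor T.hD1 T.hD2 T.D T.hD0 f hf
  have h3 := dlc_cll_free (T.cross hs) (m : ℤ) hzx0 (fun V hV => by
    haveI := (T.cross hs).P.dvr V hV.1
    exact @hhor _ V (ihbe_cross_hor 𝔓 H hϖ N' h h49 su hx hxb hs hV) _)
  rw [h1, h2]
  exact h3

include hϖ h49 su hx hxb in
/-- **the Eisenstein shape modulo `m`** of the orders of the reduction of `Y = Φ zx`, `m ∣ div Y`: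
with `δ = 12 e` (`q = η ϖ ^ e`) and ONE `γ` -/
theorem ihbe_eis (m : ℕ) {η : ↥(tbFixO 𝔓 H)} (hη : IsUnit η) {e : ℕ}
    (hpe : (𝔓.p : ↥(tbFix 𝔓 H)) = (η : ↥(tbFix 𝔓 H)) * (ϖ : ↥(tbFix 𝔓 H)) ^ e)
    (zx : ↥(tbLevF 𝔓 (N' * 𝔓.p) H)) (hzx0 : zx ≠ 0)
    (hdiv : ∀ v : Place Qb ↥(modularFunctionFieldBar (N' * 𝔓.p)),
      (m : ℤ) ∣ v.ord (tbPhiF 𝔓 (N' * 𝔓.p) H zx))
    (Y f : (↥(modularFunctionFieldBar (N' * 𝔓.p)))ˣ)
    (hY : (Y : ↥(modularFunctionFieldBar (N' * 𝔓.p))) = tbPhiF 𝔓 (N' * 𝔓.p) H zx)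
    (hf : (f : ↥(modularFunctionFieldBar (N' * 𝔓.p))) =
      tbPhiF 𝔓 (N' * 𝔓.p) H (dlxVertD 𝔓 H N')) :
    ∃ γ : ℤ,
      (∀ s, DlsFin 𝔓 N' s → (m : ℤ) ∣ ihbOrd 𝔓 N' h Y s * (12 * (e : ℤ)) - ihbOrd 𝔓 N' h f s * γ) ∧
      (∀ s, ¬ DlsFin 𝔓 N' s → (m : ℤ) ∣ ihbOrd 𝔓 N' h Y s) := by
  set C := dlxChart1 𝔓 H hϖ N' h h49 su hx hxb with hC
  set T := dlqVert 𝔓 H hϖ N' h h49 su hx hxb with hT
  have hhor : ∀ (x : ↥(tbLevF 𝔓 (N' * 𝔓.p) H)) (V : ValuationSubring ↥(tbLevF 𝔓 (N' * 𝔓.p) H))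
      (hV : V ∈ t4vpHor ↥(tbFix 𝔓 H) x) [IsDiscreteValuationRing ↥V], (m : ℤ) ∣ dlOrd V zx :=
    fun x V hV _ => dli_hor_dvd 𝔓 H (N' * 𝔓.p) V hV zx hdiv
  refine ⟨(haveI := C.P.dvr _ C.V₂_mem; dlOrd C.V₂ zx) - (haveI := C.P.dvr _ C.V₁_mem; dlOrd C.V₁ zx),
    ?_, ?_⟩
  · intro P hP
    by_cases hn : ∃ Q, (P, Q) ∈ C.G.nodes
    · obtain ⟨Q, hs⟩ := hn
      have h1 := ihbe_node 𝔓 H hϖ N' h h49 su hx hxb m hs zx hzx0 hhor Y f hY hf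
      have hδ : (T.cross hs).oW' (dlxVertD 𝔓 H N') = 12 * (e : ℤ) :=
        @dlxVertD_ord_zero_of_unif 𝔓 H _ N' _ h (C.P.dvr _ C.V₂_mem) ϖ hϖ η hη e hpe
      rw [hδ] at h1
      exact h1
    · push Not at hn
      have h1 := ihbd_free1 𝔓 H hϖ N' h h49 su hx hxb P hP hn zx hzx0 Y hY m hhor
      have h2 := ihbd_vert_free1 𝔓 H hϖ N' h h49 su hx hxb P hP hn f hf
      rw [h2, zero_mul, sub_zero]
      exact Dvd.dvd.mul_right h1 _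
  · intro P hP
    exact ihbd_cusp 𝔓 H hϖ N' h h49 su hx hxb P hP zx hzx0 Y hY m hhor

end Fermat.Agent.Ihara
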