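/-
IHARA / B2 (helper4), file 1: **(E*) modulo `m`**: `T_ℓ^fun` preserves "`m ∣ ord` at all non-cuspidal
places of `Z_∞`" (port of `dlh_heckeOrd`, `Lib/Delta/Hecke/Main.lean`, where `m = 𝔓.p`).
-/
import Mathlib
import Fermat.Agent.Lib.Delta.Hecke.Main
import Fermat.Agent.Lib.Ihara.B.Red.Ord

set_option autoImplicit false
set_option linter.unusedSectionVars false
set_option linter.unusedVariables false
set_option linter.style.haveILetI false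
set_option synthInstance.maxHeartbeats 400000

namespace Fermat.Agent.Ihara

open ModularCurve HahnSeries Fermat.Agent.T1 Fermat.Agent.T2 Fermat.Agent.TW Fermat.Agent.S24Lib
  Fermat.Agent.S05Lib AlgebraicCurve Fermat.Agent.Curve Fermat.Agent.T3 IntermediateField Module
  Fermat.Agent.Igusa Fermat.Agent.Curve.PlaceAux Fermat.Agent.S33 Fermat.Agent.Delta

local notation "Qb" => AlgebraicClosure ℚ

noncomputable section

attribute [local instance 5000] dlhAlgK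
attribute [local instance] s33g_neZero

variable (𝔓 : FFPlace) (N' : ℕ) [NeZero N'] (h : ¬ 𝔓.p ∣ N')

/-- **(E*) modulo `m`** at a rigid level -/
theorem ihb_heckeOrd (h49 : 4 ∣ N' ∨ 9 ∣ N') (m : ℕ) (ℓ : ℕ) (hℓ : ℓ.Prime)
    (hℓN : ¬ ℓ ∣ N' * 𝔓.p) (y : (↥(modularFunctionFieldBar (N' * 𝔓.p)))ˣ)
    (hy : ∀ s, DlsFin 𝔓 N' s → (m : ℤ) ∣ ihbOrd 𝔓 N' h y s)
    (Ty : (↥(modularFunctionFieldBar (N' * 𝔓.p)))ˣ)
    (hTy : (Ty : ↥(modularFunctionFieldBar (N' * 𝔓.p))) =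
      tkrHecke (N' * 𝔓.p) ℓ (y : ↥(modularFunctionFieldBar (N' * 𝔓.p))))
    (s : Place (IsLocalRing.ResidueField ↥𝔓.P) ↥(tbBarF 𝔓 N')) (hs : DlsFin 𝔓 N' s) :
    (m : ℤ) ∣ ihbOrd 𝔓 N' h Ty s := by
  haveI : NeZero ℓ := ⟨hℓ.ne_zero⟩
  have hℓN' : ¬ ℓ ∣ N' := fun h1 => hℓN (h1.mul_right _)
  have hℓp : ℓ ≠ 𝔓.p := by
    rintro rfl
    exact hℓN (dvd_mul_left _ _)
  have h49' : 4 ∣ N' * ℓ ∨ 9 ∣ N' * ℓ := h49.imp (fun h => h.mul_right ℓ) (fun h => h.mul_right ℓ)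
  have hNℓ : ¬ 𝔓.p ∣ N' * ℓ := dlh_not_dvd_mul 𝔓 h hℓ hℓp
  obtain ⟨ζ, hζK, hζk⟩ := dls_exists_zeta 𝔓 hℓ hℓp
  -- the reduction of `T y`
  have hred := (dlsRed_spec 𝔓 N' h y).tilde ℓ ζ hζK hζk
  rw [tkrTilde_eq_tkrHecke hℓ hℓN hζK, ← hTy] at hred
  letI := algebraAlong (dlhAlphaC (IsLocalRing.ResidueField ↥𝔓.P) N' ℓ)
  haveI := isScalarTower_along (dlhAlphaC (IsLocalRing.ResidueField ↥𝔓.P) N' ℓ)
  haveI := dlh_finite_alphaC 𝔓 h49 h hℓ hℓN' hℓp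
  haveI := dlh_separable_alphaC 𝔓 h49 h hℓ hℓp
  rw [← dlh_norm_beta 𝔓 h49 h hℓ hℓN' hℓp ζ hζK hζk (dlsRed 𝔓 N' h y)] at hred
  rw [ihbOrd_eq_of_redTo 𝔓 N' h Ty _ hred s]
  -- `p`-divisibility of the order of the norm
  have hy0 := dlsRed_ne_zero 𝔓 N' h y
  have hβ0 : dlhBetaC (IsLocalRing.ResidueField ↥𝔓.P) N' ℓ (dlsRed 𝔓 N' h y) ≠ 0 := by
    rw [ne_eq, map_eq_zero]
    exact hy0
  have hβint : (dlhBetaC (IsLocalRing.ResidueField ↥𝔓.P) N' ℓ).toRingHom.IsIntegral :=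
    t3h_isIntegralAlong (tkr_barOK 𝔓 h49 h).gen (tkr_barOK 𝔓 h49' hNℓ).gen _
  refine dlh_ord_norm_dvd s m hβ0 (fun w hw => ?_)
  -- `w` is non-cuspidal
  have hwj : dlhJ (IsLocalRing.ResidueField ↥𝔓.P) (N' * ℓ) ∈ w.toValuationSubring := by
    have h1 : tbBarJ 𝔓 N' ∈ (w.restrict ↥(tbBarF 𝔓 N')).toValuationSubring := by
      rw [hw]
      exact mem_of_ord_nonneg s hs
    rw [Place.mem_restrict_iff] at h1
    have h2 : algebraMap ↥(tbBarF 𝔓 N') ↥(tbBarF 𝔓 (N' * ℓ)) (tbBarJ 𝔓 N') =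
        dlhJ (IsLocalRing.ResidueField ↥𝔓.P) (N' * ℓ) := dlh_alpha_barJ 𝔓 N' ℓ
    rwa [h2] at h1
  have hwβ := dlh_beta_j_mem (IsLocalRing.ResidueField ↥𝔓.P) N' ℓ hℓ w hwj
  -- the restriction of `w` along `β̄` is non-cuspidal
  have hfin : DlsFin 𝔓 N' (w.restrictAlong (dlhBetaC (IsLocalRing.ResidueField ↥𝔓.P) N' ℓ) hβint) := by
    have h1 : tbBarJ 𝔓 N' ∈ (w.restrictAlong (dlhBetaC (IsLocalRing.ResidueField ↥𝔓.P) N' ℓ)
        hβint).toValuationSubring := hwβ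
    exact ord_nonneg_of_mem _ h1
  have h3 := hy _ hfin
  rw [ihbOrd] at h3
  rw [Place.ord_restrictAlong (dlhBetaC (IsLocalRing.ResidueField ↥𝔓.P) N' ℓ) hβint w]
  exact Dvd.dvd.mul_left h3 _

end

end Fermat.Agent.Ihara
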